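import Fermat.Agent.S31.Main
import Fermat.Prelude.Def_GaloisRep_LocalConditions

/-!
# S34/GLUE : unipotent inertia from the Eichler–Shimura interface (pure algebra)

`ESInterfaceU N S p` = the interface of `S31/Main.lean` with the clause "inertia at `q ∤ N p` is
trivial" replaced by "`(σ - 1)² = 0` on `W` for `σ` in the inertia group at `q ‖ N`, `q ≠ p`".
Then `Θ(σ) = σ + σ⁻¹ = 2 = a(2)`, so `tr ρ(σ) = 2` by (ES3); `det ρ(σ) = 1` because
`det ρ(g) ≡ ℓ ^ b ≡ ε(g)`.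
-/

set_option autoImplicit false

open Polynomial

namespace Fermat.Agent.S34

open Fermat.Agent.S29 (Qb GQ)
open Fermat.Agent.S31

/-- the Eichler–Shimura interface with unipotent inertia at `q ‖ N` -/
def ESInterfaceU (N : ℕ) [NeZero N] (S : Set ℕ) (p : ℕ) : Prop :=
  ∀ n : ℕ, ∃ (m : ℕ) (W : Type) (_ : AddCommGroup W) (act : GQ →* AddMonoid.End W)
    (a : CuspForm.heckeAlgebra N 2 S →+* AddMonoid.End W),
    n ≤ m ∧
    (∀ w : W, (p ^ m) • w = 0) ∧
    (∃ L : IntermediateField ℚ Qb, FiniteDimensional ℚ L ∧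
      ∀ σ : GQ, (∀ x ∈ L, σ x = x) → act σ = 1) ∧
    (∀ (ℓ : ℕ) (hℓ : ℓ.Prime) (hℓN : ¬ ℓ ∣ N) (hℓS : ℓ ∉ S) (A : ValuationSubring Qb),
      A.LiesOverPrime ℓ → ∀ τ : GQ, A.IsFrobeniusAt τ ℓ →
        act τ * act τ - a (CuspForm.heckeAlgebra.T hℓ hℓN hℓS) * act τ
          + (ℓ : AddMonoid.End W) = 0) ∧
    (∀ q : ℕ, q.Prime → q ∣ N → ¬ q ^ 2 ∣ N → q ≠ p → ∀ A : ValuationSubring Qb,
      A.LiesOverPrime q → ∀ σ ∈ A.inertiaSubgroupIn ℚ, (act σ - 1) * (act σ - 1) = 0) ∧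
    (∀ x : CuspForm.heckeAlgebra N 2 S, a x = 0 → ∃ y, x = (p ^ n : ℕ) • y)

/-- determinants of endomorphisms congruent modulo `I` are congruent modulo `I` -/
theorem det_sub_mem_of_forall_mem {R V : Type*} [CommRing R] [AddCommGroup V] [Module R V]
    [Module.Free R V] [Module.Finite R V] (hV : Module.finrank R V = 2) (I : Ideal R)
    (f f' : Module.End R V) (h : ∀ v, (f - f') v ∈ I • (⊤ : Submodule R V)) :
    LinearMap.det f - LinearMap.det f' ∈ I := by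
  classical
  rcases subsingleton_or_nontrivial R with hR | hR
  · rw [Subsingleton.elim (LinearMap.det f - LinearMap.det f') 0]; exact I.zero_mem
  let B := Module.finBasisOfFinrankEq R V hV
  have key : ∀ v ∈ I • (⊤ : Submodule R V), ∀ i, B.repr v i ∈ I := by
    intro v hv
    induction hv using Submodule.smul_induction_on' with
    | smul r hr n _ =>
      intro i
      rw [map_smul, Finsupp.smul_apply, smul_eq_mul]
      exact I.mul_mem_right _ hr
    | add x _ y _ hx hy =>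
      intro i
      rw [map_add, Finsupp.add_apply]
      exact I.add_mem (hx i) (hy i)
  set M := LinearMap.toMatrix B B f with hM
  set M' := LinearMap.toMatrix B B f' with hM'
  have hent : ∀ i j, M i j - M' i j ∈ I := by
    intro i j
    have := key _ (h (B j)) i
    rw [LinearMap.sub_apply, map_sub, Finsupp.sub_apply] at this
    rw [hM, hM', LinearMap.toMatrix_apply, LinearMap.toMatrix_apply]
    exact this
  rw [← LinearMap.det_toMatrix B f, ← LinearMap.det_toMatrix B f', ← hM, ← hM',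
    Matrix.det_fin_two, Matrix.det_fin_two]
  have e : M 0 0 * M 1 1 - M 0 1 * M 1 0 - (M' 0 0 * M' 1 1 - M' 0 1 * M' 1 0) =
      (M 0 0 - M' 0 0) * M 1 1 + M' 0 0 * (M 1 1 - M' 1 1)
        - ((M 0 1 - M' 0 1) * M 1 0 + M' 0 1 * (M 1 0 - M' 1 0)) := by ring
  rw [e]
  exact I.sub_mem (I.add_mem (I.mul_mem_right _ (hent 0 0)) (I.mul_mem_left _ (hent 1 1)))
    (I.add_mem (I.mul_mem_right _ (hent 0 1)) (I.mul_mem_left _ (hent 1 0)))

/-- determinants of elements that agree on the level field are congruent -/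
theorem det_sub_mem {A : Type} [CommRing A] [IsLocalRing A] (ρ : GaloisRepAdic A) (n : ℕ)
    (L : IntermediateField ℚ Qb)
    (hL : ∀ σ : GQ, (∀ x ∈ L, σ x = x) →
      ∀ v : ρ.V, ρ.ρ σ v - v ∈ (IsLocalRing.maximalIdeal A ^ n) • (⊤ : Submodule A ρ.V))
    (g h : GQ) (hgh : ∀ x ∈ L, g x = h x) :
    LinearMap.det (ρ.ρ g) - LinearMap.det (ρ.ρ h) ∈ IsLocalRing.maximalIdeal A ^ n := by
  apply det_sub_mem_of_forall_mem ρ.finrank_eq
  intro v
  have h1 : ∀ x ∈ L, (h⁻¹ * g) x = x := fun x hx => by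
    rw [AlgEquiv.mul_apply, hgh x hx]
    exact AlgEquiv.symm_apply_apply h x
  have h2 := hL _ h1 v
  have h3 : (ρ.ρ g - ρ.ρ h) v = ρ.ρ h (ρ.ρ (h⁻¹ * g) v - v) := by
    rw [map_sub, ← Module.End.mul_apply, ← map_mul, mul_inv_cancel_left, LinearMap.sub_apply]
  rw [h3]
  have h4 : ((IsLocalRing.maximalIdeal A ^ n) • (⊤ : Submodule A ρ.V)).map (ρ.ρ h) ≤
      (IsLocalRing.maximalIdeal A ^ n) • (⊤ : Submodule A ρ.V) := by
    rw [Submodule.map_smul'']
    exact Submodule.smul_mono le_rfl le_top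
  exact h4 (Submodule.mem_map_of_mem h2)

/-- the characteristic polynomial in rank two -/
theorem charpoly_eq_of_rank_two {R V : Type*} [CommRing R] [Nontrivial R] [AddCommGroup V]
    [Module R V] [Module.Free R V] [Module.Finite R V] (hV : Module.finrank R V = 2)
    (f : Module.End R V) :
    f.charpoly = X ^ 2 - C (LinearMap.trace R V f) * X + C (LinearMap.det f) := by
  let B := Module.finBasisOfFinrankEq R V hV
  rw [← LinearMap.charpoly_toMatrix f B, Matrix.charpoly_fin_two,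
    LinearMap.trace_eq_matrix_trace R B, LinearMap.det_toMatrix]

theorem det_of_charpoly {R V : Type*} [CommRing R] [Nontrivial R] [AddCommGroup V]
    [Module R V] [Module.Free R V] [Module.Finite R V] (hV : Module.finrank R V = 2)
    (f : Module.End R V) (s d : R) (h : f.charpoly = X ^ 2 - C s * X + C d) :
    LinearMap.det f = d := by
  rw [charpoly_eq_of_rank_two hV] at h
  have := congrArg (fun p => p.coeff 0) h
  simpa [coeff_X, coeff_C, coeff_X_pow] using this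

section

variable {p : ℕ} {N : ℕ} [NeZero N] {S : Finset ℕ}
  {𝒪 : Type} [CommRing 𝒪] [IsDomain 𝒪] [IsDiscreteValuationRing 𝒪]
  [IsAdicComplete (IsLocalRing.maximalIdeal 𝒪) 𝒪]
  {θ : CuspForm.heckeAlgebra N 2 (↑S : Set ℕ) →+* IsLocalRing.ResidueField 𝒪}
  {T : Type} [CommRing T] [IsLocalRing T] [IsNoetherianRing T]
  [IsAdicComplete (IsLocalRing.maximalIdeal T) T] [Algebra 𝒪 T] [IsLocalHom (algebraMap 𝒪 T)]
  [Module.Finite 𝒪 T] [Module.Free 𝒪 T]

theorem trace_det_inertia_sub_mem (hp : p.Prime)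
    (hp𝒪 : (p : 𝒪) ∈ IsLocalRing.maximalIdeal 𝒪) (hpS : p ∈ S)
    (hNS : ∀ q : ℕ, q.Prime → q ∣ N → q ∈ S)
    (hES : ESInterfaceU N (↑S : Set ℕ) p)
    (H : CuspForm.HeckeGaloisRepDatum N (↑S : Set ℕ) 𝒪 θ T)
    (q : ℕ) (hq : q.Prime) (hqp : q ≠ p) (hqN : q ∣ N) (hq2 : ¬ q ^ 2 ∣ N)
    (P : ValuationSubring Qb) (hP : P.LiesOverPrime q)
    (σ : GQ) (hσ : σ ∈ P.inertiaSubgroupIn ℚ) (n : ℕ) :
    H.ρ.trace σ - 2 ∈ IsLocalRing.maximalIdeal T ^ n ∧
      LinearMap.det (H.ρ.ρ σ) - 1 ∈ IsLocalRing.maximalIdeal T ^ n := by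
  obtain ⟨m, W, _, act, a, hnm, hkill, ⟨L', hL'fin, hL'⟩, ES1, ESU, ES3⟩ := hES n
  obtain ⟨Ln, hLnfin, hLn⟩ := H.ρ.isAdicContinuous n
  obtain ⟨χ, ⟨Lχ, hLχfin, hLχ⟩, hχfrob, hχin⟩ := exists_cyclo_pow hp m
  set L : IntermediateField ℚ Qb := Ln ⊔ L' ⊔ Lχ with hLdef
  have hLfin : FiniteDimensional ℚ L := by
    have : FiniteDimensional ℚ (Ln ⊔ L' : IntermediateField ℚ Qb) :=
      IntermediateField.finiteDimensional_sup Ln L'
    exact IntermediateField.finiteDimensional_sup (Ln ⊔ L') Lχ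
  have hLn_le : Ln ≤ L := le_sup_left.trans le_sup_left
  have hL'_le : L' ≤ L := le_sup_right.trans le_sup_left
  have hLχ_le : Lχ ≤ L := le_sup_right
  have hpT : (p : T) ∈ IsLocalRing.maximalIdeal T := by
    have h1 : algebraMap 𝒪 T (p : 𝒪) ∈ IsLocalRing.maximalIdeal T :=
      map_nonunit (algebraMap 𝒪 T) _ hp𝒪
    rwa [map_natCast] at h1
  obtain ⟨ℓ, A, τ, b, hℓ, hℓS, hA, hτ, hb⟩ := exists_frob S L hLfin σ
  have hℓN : ¬ ℓ ∣ N := fun hd => hℓS (hNS ℓ hℓ hd)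
  have hℓS' : ℓ ∉ (↑S : Set ℕ) := fun hh => hℓS (Finset.mem_coe.mp hh)
  have hℓp : ℓ ≠ p := fun hh => hℓS (hh ▸ hpS)
  -- the cyclotomic character
  have hc : ((ℓ ^ b : ℕ) : ZMod (p ^ m)) = ((1 : ℕ) : ZMod (p ^ m)) := by
    have e1 : χ σ = χ τ ^ b := by
      rw [← map_pow]
      exact eq_of_level χ Lχ hLχ σ (τ ^ b) (fun x hx => hb x (hLχ_le hx))
    have e2 : ((χ σ : (ZMod (p ^ m))ˣ) : ZMod (p ^ m)) = ((ℓ ^ b : ℕ) : ZMod (p ^ m)) := by
      rw [e1, Units.val_pow_eq_pow_val, hχfrob ℓ hℓ hℓp A hA τ hτ, Nat.cast_pow]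
    rw [← e2, hχin q hq hqp P hP σ hσ, Units.val_one, Nat.cast_one]
  constructor
  · -- the trace
    set z := dk (CuspForm.heckeAlgebra.T hℓ hℓN hℓS') (ℓ : _) b with hz
    have hz1 : H.ρ.trace σ - H.π z ∈ IsLocalRing.maximalIdeal T ^ n := by
      rw [hz, ← trace_frob_pow H hℓ hℓN hℓS' A hA τ hτ b]
      exact trace_sub_mem H.ρ n Ln hLn σ (τ ^ b) (fun x hx => hb x (hLn_le hx))
    have hz2 : a z = act σ + ((ℓ ^ b : ℕ) : AddMonoid.End W) * act σ⁻¹ := by
      have e1 : act σ = act τ ^ b := by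
        rw [← map_pow]
        exact eq_of_level act L' hL' σ (τ ^ b) (fun x hx => hb x (hL'_le hx))
      have e2 : act σ⁻¹ = act τ⁻¹ ^ b := by
        have e3 : act σ * act σ⁻¹ = 1 := by rw [← map_mul, mul_inv_cancel, map_one]
        have e4 : act τ⁻¹ ^ b * act τ ^ b = 1 := by
          rw [← map_pow, ← map_pow, ← map_mul, inv_pow, inv_mul_cancel, map_one]
        calc act σ⁻¹ = (act τ⁻¹ ^ b * act τ ^ b) * act σ⁻¹ := by rw [e4, one_mul]
          _ = act τ⁻¹ ^ b := by rw [← e1, mul_assoc, e3, mul_one]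
      rw [e1, e2]
      exact map_dk_of_quad a _ ℓ (act τ) (act τ⁻¹)
        (by rw [← map_mul, mul_inv_cancel, map_one]) (by rw [← map_mul, inv_mul_cancel, map_one])
        (ES1 ℓ hℓ hℓN hℓS' A hA τ hτ) b
    have hU := ESU q hq hqN hq2 hqp P hP σ hσ
    have hinv : act σ * act σ⁻¹ = 1 := by rw [← map_mul, mul_inv_cancel, map_one]
    have h2 : act σ + act σ⁻¹ = 2 := by
      have e : ((act σ - 1) * (act σ - 1)) * act σ⁻¹ = act σ + act σ⁻¹ - 2 := by
        have : ((act σ - 1) * (act σ - 1)) * act σ⁻¹ =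
            act σ * (act σ * act σ⁻¹) - 2 * (act σ * act σ⁻¹) + act σ⁻¹ := by noncomm_ring
        rw [this, hinv, mul_one, mul_one]; abel
      rw [hU, zero_mul] at e
      exact (sub_eq_zero.mp e.symm)
    have hzz : a (z - 2) = 0 := by
      rw [map_sub, hz2, natCast_end_eq (p ^ m) hkill _ _ hc, Nat.cast_one, one_mul, h2, map_ofNat,
        sub_self]
    obtain ⟨y, hy⟩ := ES3 _ hzz
    have hπ : H.π z - 2 ∈ IsLocalRing.maximalIdeal T ^ n := by
      have : H.π z - 2 = H.π (z - 2) := by rw [map_sub, map_ofNat]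
      rw [this, hy, map_nsmul, nsmul_eq_mul, Nat.cast_pow]
      exact Ideal.mul_mem_right _ _ (Ideal.pow_mem_pow hpT n)
    have : H.ρ.trace σ - 2 = (H.ρ.trace σ - H.π z) + (H.π z - 2) := by ring
    rw [this]
    exact Ideal.add_mem _ hz1 hπ
  · -- the determinant
    have h1 := det_sub_mem H.ρ n Ln hLn σ (τ ^ b) (fun x hx => hb x (hLn_le hx))
    have h2 : LinearMap.det (H.ρ.ρ (τ ^ b)) = ((ℓ ^ b : ℕ) : T) := by
      rw [map_pow, map_pow, det_of_charpoly H.ρ.finrank_eq _ _ _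
        (H.charpoly_frob ℓ hℓ hℓN hℓS' A hA τ hτ), Nat.cast_pow]
    have h3 : ((ℓ ^ b : ℕ) : T) - 1 ∈ IsLocalRing.maximalIdeal T ^ n := by
      have h4 : (ℓ ^ b) ≡ 1 [MOD p ^ m] := (ZMod.natCast_eq_natCast_iff _ _ _).mp hc
      have h5 : ((p ^ m : ℕ) : ℤ) ∣ ((ℓ ^ b : ℕ) : ℤ) - ((1 : ℕ) : ℤ) :=
        (Nat.modEq_iff_dvd.mp h4.symm)
      obtain ⟨k, hk⟩ := h5
      have h6 : ((ℓ ^ b : ℕ) : T) - 1 = ((p : T) ^ m) * (k : T) := by
        have := congrArg (Int.cast : ℤ → T) hk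
        push_cast at this
        push_cast
        exact this
      rw [h6]
      exact Ideal.mul_mem_right _ _ (Ideal.pow_le_pow_right hnm (Ideal.pow_mem_pow hpT m))
    rw [h2] at h1
    have : LinearMap.det (H.ρ.ρ σ) - 1 =
        (LinearMap.det (H.ρ.ρ σ) - ((ℓ ^ b : ℕ) : T)) + (((ℓ ^ b : ℕ) : T) - 1) := by ring
    rw [this]
    exact Ideal.add_mem _ h1 h3

/-- **S34 from the Eichler–Shimura interface with unipotent inertia** -/
theorem isUnipotentOnInertiaAt_of_ES (hp : p.Prime)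
    (hp𝒪 : (p : 𝒪) ∈ IsLocalRing.maximalIdeal 𝒪) (hpS : p ∈ S)
    (hNS : ∀ q : ℕ, q.Prime → q ∣ N → q ∈ S)
    (hES : ESInterfaceU N (↑S : Set ℕ) p)
    (H : CuspForm.HeckeGaloisRepDatum N (↑S : Set ℕ) 𝒪 θ T)
    (q : ℕ) (hq : q.Prime) (hqp : q ≠ p) (hqN : q ∣ N) (hq2 : ¬ q ^ 2 ∣ N) :
    H.ρ.IsUnipotentOnInertiaAt q := by
  intro P hP σ hσ
  have hH : IsHausdorff (IsLocalRing.maximalIdeal T) T := inferInstance
  have key := trace_det_inertia_sub_mem hp hp𝒪 hpS hNS hES H q hq hqp hqN hq2 P hP σ hσ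
  have htr : H.ρ.trace σ = 2 := by
    rw [← sub_eq_zero]
    apply hH.haus
    intro n
    rw [SModEq.zero, smul_eq_mul, Ideal.mul_top]
    exact (key n).1
  have hdet : LinearMap.det (H.ρ.ρ σ) = 1 := by
    rw [← sub_eq_zero]
    apply hH.haus
    intro n
    rw [SModEq.zero, smul_eq_mul, Ideal.mul_top]
    exact (key n).2
  rw [charpoly_eq_of_rank_two H.ρ.finrank_eq, hdet]
  have : LinearMap.trace T H.ρ.V (H.ρ.ρ σ) = 2 := htr
  rw [this]
  simp only [map_ofNat, map_one]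
  ring

end

end Fermat.Agent.S34
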