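import Fermat.Agent.S34.Raw
import Fermat.Agent.S31.ES
import Fermat.Agent.S34.Mod.MainI4

/-!
# S34/ES : the Eichler–Shimura interface with unipotent inertia

`esInterfaceU_of_raw` with `X = S29.XN N`, `κ = S31.kap`, raw data from `S29/Wiring.lean`; the only new
input is `InertiaSq N m` (the toric theorem, `S34.inertia_sq`).
-/

set_option autoImplicit false

namespace Fermat.Agent.S34

open Fermat.Agent.S29 Fermat.Agent.S31 Fermat.Agent.S24

/-- the toric theorem on Kummer elements: `(s - 1)(s' - 1) = 0` on classes for `s, s'` in the inertia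
group at `q ‖ N`, `q ∤ m` -/
def InertiaSq (N m : ℕ) [NeZero N] : Prop :=
  ∀ q : ℕ, q.Prime → q ∣ N → ¬ q ^ 2 ∣ N → ¬ q ∣ m → ∀ A : ValuationSubring Qb, A.LiesOverPrime q →
    ∀ s ∈ A.inertiaSubgroupIn ℚ, ∀ s' ∈ A.inertiaSubgroupIn ℚ, ∀ u : FN N, PDiv Kb (FN N) m u →
      ∃ h : FN N, gal N s (gal N s' u) * u = gal N s u * gal N s' u * h ^ m

theorem Theta_inertiaSq {N m : ℕ} [NeZero N] (hm : m ≠ 0) (hD : Desc N m) (hT : InertiaSq N m)
    (q : ℕ) (hq : q.Prime) (hqN : q ∣ N) (hq2 : ¬ q ^ 2 ∣ N) (hqm : ¬ q ∣ m)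
    (A : ValuationSubring Qb) (hA : A.LiesOverPrime q)
    (τ : GQ) (hτ : τ ∈ A.inertiaSubgroupIn ℚ) (g : GQ) (c : XN N) :
    actW N m τ (actW N m τ (actW N m g (Theta hm hD c))) + actW N m g (Theta hm hD c) =
      2 • actW N m τ (actW N m g (Theta hm hD c)) := by
  have hP : PDiv Kb (FN N) m (gal N g (uK hD c)) :=
    Fermat.Agent.ES.Alg.PDiv.gal (pdiv_of_isKummer N m c c.2 _ (isKummer_uK hD c)) g
  obtain ⟨h, hh⟩ := hT q hq hqN hq2 hqm A hA τ hτ τ hτ _ hP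
  rw [Theta_apply, actW_cl, actW_cl, actW_cl, ← cl_pow, ← cl_mul]
  refine cl_eq_of_eq_mul hm _ _ (r := h) ?_
  rw [hh, sq]

/-- the interface, given (KL) at all good places and the toric theorem -/
theorem esInterfaceU_of {p : ℕ} {N : ℕ} [NeZero N] {S : Finset ℕ} (hp : p.Prime) (hpS : p ∈ S)
    (hNS : ∀ q : ℕ, q.Prime → q ∣ N → q ∈ S) (hKL : KLAll N) (hT : ∀ m, InertiaSq N (p ^ m)) :
    ESInterfaceU N (↑S : Set ℕ) p := by
  refine esInterfaceU_of_raw hp hNS (XN N) kap kap_injective (fun m => ?_)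
  have hm : p ^ m ≠ 0 := pow_ne_zero _ hp.ne_zero
  have hD := Fermat.Agent.S31.desc_holds N (p ^ m) hm
  have hnd : ∀ ℓ : ℕ, ℓ.Prime → ¬ ℓ ∣ N → ℓ ≠ p → ¬ ℓ ∣ N * p ^ m := by
    intro ℓ hℓ hN hne hd
    rcases (Nat.Prime.dvd_mul hℓ).mp hd with h | h
    · exact hN h
    · exact hne ((Nat.prime_dvd_prime_iff_eq hℓ hp).mp (hℓ.dvd_of_dvd_pow h))
  refine ⟨WW N (p ^ m), inferInstance, actW N (p ^ m), Theta hm hD, nsmul_WW,
    fun c hc => Theta_ker hm hD c hc, fun c => Theta_level hm hD c, ?_, ?_⟩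
  · intro ℓ hℓ hℓN hℓS A hA σ hσ g c
    have hℓp : ℓ ≠ p := fun h => hℓS (Finset.mem_coe.mpr (h ▸ hpS))
    rw [kap_T, ← TX_eq hℓ hℓN]
    exact Theta_ES hm hD (k3_holds' N _) (es1_of_KL N _ hKL) ℓ hℓ (hnd ℓ hℓ hℓN hℓp) A hA σ hσ g c
  · intro q hq hqN hq2 hqp A hA τ hτ g c
    exact Theta_inertiaSq hm hD (hT m) q hq hqN hq2
      (fun hd => hqp ((Nat.prime_dvd_prime_iff_eq hq hp).mp (hq.dvd_of_dvd_pow hd))) A hA τ hτ g c

/-- the toric theorem (`S34.Mod.inertia_pow`) -/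
theorem inertiaSq_holds (N p k : ℕ) [NeZero N] (hp : p.Prime) : InertiaSq N (p ^ k) := by
  intro q hq hqN hq2 hqm A hA s hs s' hs' u hu
  obtain ⟨M1, hM⟩ := hqN
  have hN : N = M1 * q := by rw [hM, mul_comm]
  subst hN
  have hM0 : M1 ≠ 0 := fun h0 => NeZero.ne (M1 * q) (by rw [h0, zero_mul])
  have : NeZero M1 := ⟨hM0⟩
  have : NeZero q := ⟨hq.ne_zero⟩
  have hc : Nat.Coprime q M1 := (Nat.Prime.coprime_iff_not_dvd hq).2 fun hd =>
    hq2 (by rw [sq]; exact Nat.mul_dvd_mul hd (dvd_refl q))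
  by_cases hpq : p = q
  · have hk : k = 0 := by
      by_contra hk
      exact hqm (hpq ▸ dvd_pow_self p hk)
    subst hk
    have h1 : gal (M1 * q) s u ≠ 0 := (map_ne_zero_iff _ (gal (M1 * q) s).injective).mpr hu.1
    have h2 : gal (M1 * q) s' u ≠ 0 := (map_ne_zero_iff _ (gal (M1 * q) s').injective).mpr hu.1
    refine ⟨gal (M1 * q) s (gal (M1 * q) s' u) * u * (gal (M1 * q) s u * gal (M1 * q) s' u)⁻¹, ?_⟩
    rw [pow_zero, pow_one]
    field_simp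
  · exact Mod.inertia_pow hq hc hp hpq k hA hs hs' u hu

theorem esInterfaceU {p : ℕ} {N : ℕ} [NeZero N] {S : Finset ℕ} (hp : p.Prime) (hpS : p ∈ S)
    (hNS : ∀ q : ℕ, q.Prime → q ∣ N → q ∈ S) : ESInterfaceU N (↑S : Set ℕ) p :=
  esInterfaceU_of hp hpS hNS (klAll N) (fun m => inertiaSq_holds N p m hp)

end Fermat.Agent.S34
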